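import Mathlib

/-!
# T14 / RED-c (1): a valuation subring above a prime of a number field

`exists_valuationSubring_above`: every nonzero prime `P` of `𝓞 L` (for `L` a finite subextension
of `AlgebraicClosure ℚ`) is the trace of the maximal ideal of a valuation subring of
`AlgebraicClosure ℚ`.  The abstract version `exists_valuationSubring_above'` works for any
field extension `M / L` and any maximal ideal of `𝓞 L`.
-/

set_option autoImplicit false

namespace Fermat.Agent.S14.Reduction.ValAbove

open scoped NumberField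

/-- Every maximal ideal of `𝓞 L` is the trace of the maximal ideal of a valuation subring of any
field extension `M` of `L`. -/
theorem exists_valuationSubring_above' {M : Type*} [Field M] (L : Type*) [Field L] [Algebra L M]
    (P : Ideal (𝓞 L)) [hP : P.IsMaximal] :
    ∃ A : ValuationSubring M, ∀ x : 𝓞 L, x ∈ P ↔ algebraMap L M (x : L) ∈ A.nonunits := by
  let f : 𝓞 L →+* M := (algebraMap L M).comp (algebraMap (𝓞 L) L)
  have hf : Function.Injective f :=
    (FaithfulSMul.algebraMap_injective L M).comp (FaithfulSMul.algebraMap_injective (𝓞 L) L)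
  let A₀ : Subring M := f.range
  let φ : 𝓞 L →+* A₀ := f.rangeRestrict
  have hφsurj : Function.Surjective φ := f.rangeRestrict_surjective
  let I : Ideal A₀ := P.map φ
  have hI : I ≠ ⊤ := by
    intro h
    rw [Ideal.eq_top_iff_one, Ideal.mem_map_iff_of_surjective φ hφsurj] at h
    obtain ⟨x, hx, hx1⟩ := h
    have h1 : f x = f 1 := by
      have h2 : ((φ x : A₀) : M) = ((1 : A₀) : M) := congrArg Subtype.val hx1
      rw [map_one]
      exact h2
    rw [hf h1] at hx
    exact hP.ne_top ((Ideal.eq_top_iff_one P).mpr hx)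
  obtain ⟨A, hle, himg⟩ := Ideal.image_subset_nonunits_valuationSubring I hI
  refine ⟨A, fun x => ⟨fun hx => ?_, fun hx => ?_⟩⟩
  · apply himg
    exact ⟨φ x, Ideal.mem_map_of_mem φ hx, rfl⟩
  · let ψ : 𝓞 L →+* A := (Subring.inclusion hle).comp φ
    let P'' : Ideal (𝓞 L) := (IsLocalRing.maximalIdeal A).comap ψ
    have hPP'' : P ≤ P'' := by
      intro y hy
      rw [Ideal.mem_comap, ← ValuationSubring.coe_mem_nonunits_iff]
      apply himg
      exact ⟨φ y, Ideal.mem_map_of_mem φ hy, rfl⟩
    have hP''top : P'' ≠ ⊤ := Ideal.comap_ne_top ψ (IsLocalRing.maximalIdeal.isMaximal A).ne_top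
    have heq : P = P'' := hP.eq_of_le hP''top hPP''
    rw [heq, Ideal.mem_comap, ← ValuationSubring.coe_mem_nonunits_iff]
    exact hx

/-- RED-c (1), in the shape requested by the RED owner. -/
theorem exists_valuationSubring_above (L : IntermediateField ℚ (AlgebraicClosure ℚ))
    [FiniteDimensional ℚ L] (P : Ideal (𝓞 L)) [P.IsPrime] (hP : P ≠ ⊥) :
    ∃ A : ValuationSubring (AlgebraicClosure ℚ),
      ∀ x : 𝓞 L, x ∈ P ↔ ((x : L) : AlgebraicClosure ℚ) ∈ A.nonunits := by
  have : NumberField L := ⟨⟩
  have : P.IsMaximal := Ring.DimensionLEOne.maximalOfPrime hP inferInstance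
  exact exists_valuationSubring_above' (M := AlgebraicClosure ℚ) L P

end Fermat.Agent.S14.Reduction.ValAbove
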