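/-
T14 package RED-c (1): a valuation subring of `ℚ̄` above a given nonzero prime of `𝓞 L`.
-/
import Mathlib
import Fermat.Agent.Common_helper32.FrobeniusExists

set_option autoImplicit false
set_option linter.style.haveILetI false

open NumberField

namespace Fermat.Agent.S14.Reduction

/-- For a nonzero prime `P` of the ring of integers of a subfield `L ⊆ ℚ̄`, there is a valuation
subring `A` of `ℚ̄` whose maximal ideal cuts out exactly `P` on `𝓞 L`. -/
theorem exists_valuationSubring_above (L : IntermediateField ℚ (AlgebraicClosure ℚ))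
    [FiniteDimensional ℚ L] (P : Ideal (𝓞 L)) [P.IsPrime] (hP : P ≠ ⊥) :
    ∃ A : ValuationSubring (AlgebraicClosure ℚ),
      ∀ x : 𝓞 L, x ∈ P ↔ ((x : L) : AlgebraicClosure ℚ) ∈ A.nonunits := by
  classical
  haveI : NumberField L := { to_charZero := inferInstance, to_finiteDimensional := inferInstance }
  -- the embedding `𝓞 L → ℚ̄`
  let f : 𝓞 L →+* AlgebraicClosure ℚ := (algebraMap L (AlgebraicClosure ℚ)).comp (algebraMap (𝓞 L) L)
  have hf : ∀ x : 𝓞 L, f x = ((x : L) : AlgebraicClosure ℚ) := fun x => rfl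
  have hfinj : ∀ a b : 𝓞 L, f a = f b → a = b := fun a b h =>
    RingOfIntegers.coe_injective ((algebraMap L (AlgebraicClosure ℚ)).injective h)
  let R : Subring (AlgebraicClosure ℚ) := f.range
  let e : 𝓞 L ≃+* R := RingEquiv.ofBijective f.rangeRestrict
    ⟨fun a b h => hfinj a b (congrArg (fun z : R => (z : AlgebraicClosure ℚ)) h),
      f.rangeRestrict_surjective⟩
  have he : ∀ x : 𝓞 L, ((e x : R) : AlgebraicClosure ℚ) = f x := fun x => rfl
  let I : Ideal R := Ideal.comap (e.symm : R →+* 𝓞 L) P
  have hI : I ≠ ⊤ := (Ideal.comap_isPrime (e.symm : R →+* 𝓞 L) P).ne_top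
  obtain ⟨B, -, hB⟩ := Ideal.image_subset_nonunits_valuationSubring I hI
  have hmax : P.IsMaximal := Ideal.IsPrime.isMaximal inferInstance hP
  have hint : ∀ y : 𝓞 L, f y ∈ B := by
    intro y
    apply Fermat.Agent.Common_helper32.isIntegral_mem_valuationSubring
    rw [hf]
    exact (isIntegral_algebraMap_iff (algebraMap L (AlgebraicClosure ℚ)).injective).mpr y.2
  refine ⟨B, fun x => ⟨fun hx => ?_, fun hx => ?_⟩⟩
  · rw [← hf, ← he]
    apply hB
    refine ⟨e x, ?_, rfl⟩
    show e.symm (e x) ∈ P
    rw [RingEquiv.symm_apply_apply]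
    exact hx
  · by_contra hxP
    obtain ⟨y, m, hm, hym⟩ := hmax.exists_inv hxP
    have h1 : f y * f x + f m = 1 := by rw [← map_mul, ← map_add, hym, map_one]
    have hfx : B.valuation (f x) < 1 := by
      rw [← B.mem_nonunits_iff, hf]; exact hx
    have hfy : B.valuation (f y) ≤ 1 := (B.valuation_le_one_iff _).mpr (hint y)
    have hfm : B.valuation (f m) < 1 := by
      rw [← B.mem_nonunits_iff, ← he]
      apply hB
      refine ⟨e m, ?_, rfl⟩
      show e.symm (e m) ∈ P
      rw [RingEquiv.symm_apply_apply]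
      exact hm
    have h2 : B.valuation (f y * f x) < 1 := by
      rw [map_mul]
      exact mul_lt_one_of_nonneg_of_lt_one_right hfy zero_le hfx
    have h3 : B.valuation (f y * f x + f m) < 1 := Valuation.map_add_lt _ h2 hfm
    rw [h1, map_one] at h3
    exact lt_irrefl _ h3

end Fermat.Agent.S14.Reduction
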