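/-
T14 package RED, part (a): the abstract linear algebra of an extension
`0 → C → V → V/C → 0` of order `p²` with `C` fixed and `G` acting on `V/C` through `χ`.
Mathlib only.
-/
import Mathlib

set_option autoImplicit false
set_option linter.unusedSectionVars false
set_option linter.style.haveILetI false

namespace Fermat.Agent.S14.Reduction

variable {p : ℕ} [Fact p.Prime] {G : Type*} [Group G] {V : Type*} [AddCommGroup V]
  [Module (ZMod p) V] [DistribMulAction G V] [SMulCommClass G (ZMod p) V]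

/-- The abstract hypotheses: `C` is pointwise fixed, `G` acts on `V / C` through `χ`,
`|C| = p`, `|V| = p²`. -/
structure Setup (C : Submodule (ZMod p) V) (χ : G → ZMod p) : Prop where
  fixed : ∀ σ : G, ∀ x ∈ C, σ • x = x
  quot : ∀ σ : G, ∀ x : V, σ • x - χ σ • x ∈ C
  card_sub : Nat.card C = p
  card_total : Nat.card V = p ^ 2

namespace Setup

variable {C : Submodule (ZMod p) V} {χ : G → ZMod p}

lemma finite_V (h : Setup C χ) : Finite V := by
  apply Nat.finite_of_card_ne_zero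
  rw [h.card_total]
  exact pow_ne_zero _ (Fact.out : p.Prime).ne_zero

lemma exists_notMem (h : Setup C χ) : ∃ v₀ : V, v₀ ∉ C := by
  by_contra hcon
  replace hcon : ∀ x : V, x ∈ C := fun x => by
    by_contra hx
    exact hcon ⟨x, hx⟩
  have htop : C = ⊤ := by
    rw [eq_top_iff]
    intro x _
    exact hcon x
  have h1 : Nat.card C = Nat.card V := by
    rw [htop]
    exact Nat.card_congr (Submodule.topEquiv (R := ZMod p) (M := V)).toEquiv
  rw [h.card_sub, h.card_total] at h1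
  have hp := (Fact.out : p.Prime).one_lt
  nlinarith [hp]

omit [DistribMulAction G V] [SMulCommClass G (ZMod p) V] in
lemma eq_zero_of_smul_mem {v₀ : V} (hv₀ : v₀ ∉ C) {a : ZMod p} (ha : a • v₀ ∈ C) : a = 0 := by
  by_contra hne
  apply hv₀
  have := C.smul_mem a⁻¹ ha
  rwa [smul_smul, inv_mul_cancel₀ hne, one_smul] at this

omit [DistribMulAction G V] [SMulCommClass G (ZMod p) V] in
lemma eq_of_smul_sub_mem {v₀ : V} (hv₀ : v₀ ∉ C) {a b : ZMod p}
    (hab : a • v₀ - b • v₀ ∈ C) : a = b := by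
  rw [← sub_smul] at hab
  exact sub_eq_zero.mp (eq_zero_of_smul_mem hv₀ hab)

/-- Every vector is `a • v₀ + c` with `c ∈ C`. -/
lemma exists_decomp (h : Setup C χ) {v₀ : V} (hv₀ : v₀ ∉ C) (v : V) :
    ∃ a : ZMod p, ∃ c ∈ C, v = a • v₀ + c := by
  haveI := h.finite_V
  let f : ZMod p × C → V := fun x => x.1 • v₀ + (x.2 : V)
  have hinj : Function.Injective f := by
    rintro ⟨a, c⟩ ⟨a', c'⟩ hEq
    simp only [f] at hEq
    have h1 : a • v₀ - a' • v₀ ∈ C := by
      have : a • v₀ - a' • v₀ = (c' : V) - c := by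
        have := hEq
        rw [← sub_eq_zero] at this ⊢
        rw [← this]; abel
      rw [this]
      exact C.sub_mem c'.2 c.2
    have haa : a = a' := eq_of_smul_sub_mem hv₀ h1
    subst haa
    have : (c : V) = c' := by simpa using hEq
    rw [Prod.mk.injEq]
    exact ⟨rfl, Subtype.ext this⟩
  have hcard : Nat.card V ≤ Nat.card (ZMod p × C) := by
    rw [Nat.card_prod, Nat.card_zmod, h.card_sub, h.card_total, sq]
  obtain ⟨⟨a, c⟩, hac⟩ := (hinj.bijective_of_nat_card_le hcard).2 v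
  exact ⟨a, c, c.2, hac.symm⟩

lemma map_mul (h : Setup C χ) (σ τ : G) : χ (σ * τ) = χ σ * χ τ := by
  obtain ⟨v₀, hv₀⟩ := h.exists_notMem
  apply eq_of_smul_sub_mem hv₀
  have h1 := h.quot (σ * τ) v₀
  have h2 := h.quot τ v₀
  have h3 := h.quot σ v₀
  have h4 : σ • (τ • v₀ - χ τ • v₀) = τ • v₀ - χ τ • v₀ := h.fixed σ _ h2
  have key : χ (σ * τ) • v₀ - (χ σ * χ τ) • v₀ =
      -((σ * τ) • v₀ - χ (σ * τ) • v₀) + (τ • v₀ - χ τ • v₀) + χ τ • (σ • v₀ - χ σ • v₀) := by
    rw [smul_sub, smul_comm σ (χ τ) v₀] at h4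
    have h5 : σ • τ • v₀ = τ • v₀ - χ τ • v₀ + χ τ • σ • v₀ := by
      rw [← h4]; abel
    rw [mul_smul σ τ v₀, smul_sub, smul_smul (χ τ) (χ σ), mul_comm (χ τ) (χ σ), h5]; abel
  rw [key]
  exact C.add_mem (C.add_mem (C.neg_mem h1) h2) (C.smul_mem _ h3)

lemma map_one (h : Setup C χ) : χ (1 : G) = 1 := by
  obtain ⟨v₀, hv₀⟩ := h.exists_notMem
  apply eq_of_smul_sub_mem hv₀
  have h1 := h.quot 1 v₀
  rw [one_smul] at h1 ⊢
  have := C.neg_mem h1
  rwa [neg_sub] at this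

lemma map_inv (h : Setup C χ) (σ : G) : χ σ⁻¹ = (χ σ)⁻¹ := by
  have h1 : χ σ⁻¹ * χ σ = 1 := by rw [← h.map_mul, inv_mul_cancel, h.map_one]
  exact eq_inv_of_mul_eq_one_left h1

lemma map_ne_zero (h : Setup C χ) (σ : G) : χ σ ≠ 0 := by
  intro h0
  have h1 : χ σ⁻¹ * χ σ = 1 := by rw [← h.map_mul, inv_mul_cancel, h.map_one]
  rw [h0, mul_zero] at h1
  exact zero_ne_one h1

lemma map_pow (h : Setup C χ) (σ : G) (n : ℕ) : χ (σ ^ n) = χ σ ^ n := by
  induction n with
  | zero => rw [pow_zero, pow_zero, h.map_one]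
  | succ n ih => rw [pow_succ, pow_succ, h.map_mul, ih]

/-- For `χ σ = 1` the displacement `σ • x - x` lies in `C`. -/
lemma smul_sub_mem (h : Setup C χ) {σ : G} (hσ : χ σ = 1) (x : V) : σ • x - x ∈ C := by
  have := h.quot σ x
  rwa [hσ, one_smul] at this

/-- The general displacement formula: `σ • (a • v₀ + c) = χ σ • a • v₀ + a • (σ • v₀ - χ σ • v₀) + c`. -/
lemma smul_eq_of_smul_eq (h : Setup C χ) {v₀ : V} (hv₀ : v₀ ∉ C) {σ τ : G}
    (hστ : σ • v₀ = τ • v₀) (v : V) : σ • v = τ • v := by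
  obtain ⟨a, c, hc, rfl⟩ := h.exists_decomp hv₀ v
  rw [smul_add, smul_add, smul_comm σ a, smul_comm τ a, hστ, h.fixed σ c hc, h.fixed τ c hc]

lemma smul_eq_self_of_smul_eq (h : Setup C χ) {v₀ : V} (hv₀ : v₀ ∉ C) {σ : G}
    (hσ : σ • v₀ = v₀) (v : V) : σ • v = v := by
  have := h.smul_eq_of_smul_eq hv₀ (σ := σ) (τ := 1) (by rw [hσ, one_smul]) v
  rwa [one_smul] at this

/-- Additivity of the displacement on `ker χ`. -/
lemma mul_smul_sub (h : Setup C χ) {σ τ : G} (hτ : χ τ = 1) (x : V) :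
    (σ * τ) • x - x = (σ • x - x) + (τ • x - x) := by
  have h1 : σ • (τ • x - x) = τ • x - x := h.fixed σ _ (h.smul_sub_mem hτ x)
  rw [smul_sub] at h1
  rw [mul_smul]
  have : σ • τ • x = τ • x - x + σ • x := by rw [← h1]; abel
  rw [this]; abel

lemma pow_smul_sub (h : Setup C χ) {σ : G} (hσ : χ σ = 1) (n : ℕ) (x : V) :
    (σ ^ n) • x - x = (n : ZMod p) • (σ • x - x) := by
  induction n with
  | zero => simp
  | succ n ih =>
    rw [pow_succ, h.mul_smul_sub hσ, ih, Nat.cast_succ, add_smul, one_smul]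

/-- Conjugation formula: for `χ σ = 1`, `(g⁻¹ σ g) • x - x = χ g • (σ • x - x)`... stated on
all of `V` as an equality of displacements of `v₀`-type vectors. -/
lemma conj_smul_sub (h : Setup C χ) {σ : G} (hσ : χ σ = 1) (g : G) (x : V) :
    (g⁻¹ * σ * g) • x - x = χ g • (σ • x - x) := by
  -- `g • x = χ g • x + c`, `c ∈ C`
  have hc := h.quot g x
  set c := g • x - χ g • x with hcdef
  have hgx : g • x = χ g • x + c := by rw [hcdef]; abel
  have hd := h.smul_sub_mem hσ x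
  have h1 : σ • g • x = g • x + χ g • (σ • x - x) := by
    rw [hgx, smul_add, h.fixed σ c hc, smul_comm σ (χ g) x, smul_sub]; abel
  have h2 : g⁻¹ • (χ g • (σ • x - x)) = χ g • (σ • x - x) :=
    h.fixed g⁻¹ _ (C.smul_mem _ hd)
  rw [mul_smul, mul_smul, h1, smul_add, inv_smul_smul, h2]; abel

/-- For `χ σ = 1` and `χ g = n`, the elements `g⁻¹ σ g` and `σ ^ n` act identically on `V`. -/
lemma conj_smul_eq_pow_smul (h : Setup C χ) {σ : G} (hσ : χ σ = 1) (g : G) (n : ℕ)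
    (hn : χ g = (n : ZMod p)) (v : V) : (g⁻¹ * σ * g) • v = (σ ^ n) • v := by
  have h1 := h.conj_smul_sub hσ g v
  have h2 := h.pow_smul_sub hσ n v
  rw [hn, ← h2] at h1
  exact sub_left_injective h1

/-- If `ker χ` acts trivially then the action of `G` on `V` is commutative. -/
lemma smul_comm_of_trivial (h : Setup C χ) (htriv : ∀ σ : G, χ σ = 1 → ∀ v : V, σ • v = v)
    (σ τ : G) (v : V) : σ • τ • v = τ • σ • v := by
  have hc : χ (σ⁻¹ * τ⁻¹ * σ * τ) = 1 := by
    rw [h.map_mul, h.map_mul, h.map_mul, h.map_inv, h.map_inv]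
    have h1 := h.map_ne_zero σ
    have h2 := h.map_ne_zero τ
    field_simp
  have hg : σ * τ = τ * σ * (σ⁻¹ * τ⁻¹ * σ * τ) := by group
  rw [← mul_smul, hg, mul_smul, htriv _ hc v, mul_smul]

/-- The eigenspace `{v | τ₀ • v = χ τ₀ • v}` as a submodule. -/
def eigen (χ : G → ZMod p) (τ₀ : G) : Submodule (ZMod p) V where
  carrier := {v | τ₀ • v = χ τ₀ • v}
  zero_mem' := by simp
  add_mem' := by
    intro a b ha hb
    simp only [Set.mem_ofPred_eq] at ha hb ⊢
    rw [smul_add, smul_add, ha, hb]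
  smul_mem' := by
    intro c x hx
    simp only [Set.mem_ofPred_eq] at hx ⊢
    rw [smul_comm τ₀ c x, hx, smul_comm]

lemma mem_eigen {τ₀ : G} {v : V} : v ∈ eigen (V := V) χ τ₀ ↔ τ₀ • v = χ τ₀ • v := Iff.rfl

/-- Case A: if `ker χ` acts trivially and some `τ₀` has `χ τ₀ ≠ 1`, then `C` has a `G`-stable
complement. -/
theorem exists_stable_compl_of_trivial (h : Setup C χ)
    (htriv : ∀ σ : G, χ σ = 1 → ∀ v : V, σ • v = v) {τ₀ : G} (hτ₀ : χ τ₀ ≠ 1) :
    ∃ C' : Submodule (ZMod p) V, (∀ σ : G, ∀ x ∈ C', σ • x ∈ C') ∧ IsCompl C C' := by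
  refine ⟨eigen χ τ₀, ?_, ?_, ?_⟩
  · intro σ x hx
    rw [mem_eigen] at hx ⊢
    rw [h.smul_comm_of_trivial htriv τ₀ σ x, hx, smul_comm]
  · rw [Submodule.disjoint_def]
    intro x hxC hx
    rw [mem_eigen, h.fixed τ₀ x hxC] at hx
    have h1 : (1 - χ τ₀) • x = 0 := by rw [sub_smul, one_smul, ← hx, sub_self]
    rcases smul_eq_zero.mp h1 with h2 | h2
    · exact absurd (sub_eq_zero.mp h2).symm hτ₀
    · exact h2
  · rw [codisjoint_iff, eq_top_iff]
    intro v _
    have hne : (1 - χ τ₀) ≠ 0 := fun h0 => hτ₀ (sub_eq_zero.mp h0).symm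
    obtain ⟨w, hw⟩ : ∃ w : V, w = τ₀ • v - χ τ₀ • v := ⟨_, rfl⟩
    have hwC : w ∈ C := hw ▸ h.quot τ₀ v
    obtain ⟨a, ha⟩ : ∃ a : ZMod p, a = (1 - χ τ₀)⁻¹ := ⟨_, rfl⟩
    have hτv : τ₀ • v = χ τ₀ • v + w := by rw [hw]; abel
    rw [Submodule.mem_sup]
    refine ⟨a • w, C.smul_mem a hwC, v - a • w, ?_, by abel⟩
    rw [mem_eigen, smul_sub, smul_comm τ₀ a w, h.fixed τ₀ w hwC, hτv, smul_sub, smul_smul]
    have h3 : (χ τ₀ * a) • w = a • w - w := by
      have : χ τ₀ * a = a - 1 := by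
        rw [ha]; field_simp; ring
      rw [this, sub_smul, one_smul]
    rw [h3]; abel

end Setup

end Fermat.Agent.S14.Reduction
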