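/-
T14 package RED, part (b): the field `L` cut out by `V` (fixed field of the kernel of the action),
`K = ℚ(ζ_p) ⊆ L`, `[L : K] = p`, the conjugation action, and the translation of the local
conditions, given the local input `LocalInput L` (package RED-c).  Main results:
`false_of_nontrivial` (Case B) and `splitsGlobally_of_localInput`.
-/
import Mathlib
import Fermat.Prelude.Def_ExtCitation_AdmissibleExtension_v2
import Fermat.Agent.S14.Reduction.Cocycle
import Fermat.Agent.S14.Defs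

set_option autoImplicit false
set_option linter.unusedSectionVars false
set_option linter.style.haveILetI false

open NumberField

namespace Fermat.Agent.S14.Reduction

open ExtCitation

/-- `ℚ̄`. -/
abbrev Qb := AlgebraicClosure ℚ
/-- `G_ℚ`. -/
abbrev GQ := Qb ≃ₐ[ℚ] Qb

theorem ratAlgebra_Qb_eq :
    (DivisionRing.toRatAlgebra : Algebra ℚ (AlgebraicClosure ℚ)) = AlgebraicClosure.instAlgebra ℚ :=
  rfl

instance isAlgClosure_Qb : IsAlgClosure ℚ Qb := by
  have h : @IsAlgClosure ℚ (AlgebraicClosure ℚ) _ _ (AlgebraicClosure.instAlgebra ℚ) _ :=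
    inferInstance
  exact h

section chi

variable (p : ℕ) [Fact p.Prime]

/-- The mod `p` cyclotomic character with values in `ZMod p`. -/
noncomputable def chi (σ : GQ) : ZMod p := (cycloExp p σ : ZMod p)

lemma exists_primitiveRoot : ∃ ζ : Qb, IsPrimitiveRoot ζ p := by
  haveI : NeZero p := ⟨(Fact.out : p.Prime).ne_zero⟩
  haveI : NeZero (p : Qb) := ⟨Nat.cast_ne_zero.mpr (NeZero.ne p)⟩
  exact HasEnoughRootsOfUnity.exists_primitiveRoot Qb p

variable {p}

lemma apply_eq_pow_cycloExp {ζ : Qb} (hζ : IsPrimitiveRoot ζ p) (σ : GQ) :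
    σ ζ = ζ ^ cycloExp p σ := by
  haveI : NeZero p := ⟨(Fact.out : p.Prime).ne_zero⟩
  have h := modularCyclotomicCharacter.spec Qb (card_rootsOfUnity_eq_self p)
    (σ : Qb ≃+* Qb) (t := hζ.toRootsOfUnity) (SetLike.coe_mem hζ.toRootsOfUnity)
  exact h

lemma pow_eq_pow_iff {ζ : Qb} (hζ : IsPrimitiveRoot ζ p) (a b : ℕ) :
    ζ ^ a = ζ ^ b ↔ (a : ZMod p) = b := by
  have hp : p ≠ 0 := (Fact.out : p.Prime).ne_zero
  obtain ⟨u, rfl⟩ := hζ.isUnit hp
  rw [← Units.val_pow_eq_pow_val, ← Units.val_pow_eq_pow_val, Units.val_inj, pow_eq_pow_iff_modEq,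
    ← (IsPrimitiveRoot.coe_units_iff.mp hζ).eq_orderOf, ZMod.natCast_eq_natCast_iff]

lemma chi_eq_natCast_iff {ζ : Qb} (hζ : IsPrimitiveRoot ζ p) (σ : GQ) (n : ℕ) :
    chi p σ = n ↔ σ ζ = ζ ^ n := by
  rw [apply_eq_pow_cycloExp hζ, pow_eq_pow_iff hζ, chi]

lemma chi_eq_one_iff {ζ : Qb} (hζ : IsPrimitiveRoot ζ p) (σ : GQ) :
    chi p σ = 1 ↔ σ ζ = ζ := by
  have := chi_eq_natCast_iff hζ σ 1
  rwa [Nat.cast_one, pow_one] at this

end chi

section adm

variable {p : ℕ} [Fact p.Prime] {V : Type} [AddCommGroup V] [Module (ZMod p) V]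
  [DistribMulAction GQ V] [SMulCommClass GQ (ZMod p) V] {C : Submodule (ZMod p) V}

lemma setup_of_adm (hadm : IsAdmissibleExtensionCts p V C) : Setup C (chi p) where
  fixed := hadm.fixed_sub
  quot := hadm.cyclo_quot
  card_sub := hadm.card_sub
  card_total := hadm.card_total

variable (V) in
/-- The kernel of the action of `G_ℚ` on `V`. -/
noncomputable def kerAct : Subgroup GQ := (MulAction.toPermHom GQ V).ker

lemma mem_kerAct {σ : GQ} : σ ∈ kerAct V ↔ ∀ v : V, σ • v = v := by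
  rw [kerAct, MonoidHom.mem_ker, Equiv.Perm.ext_iff]
  rfl

instance kerAct_normal : (kerAct V).Normal := MonoidHom.normal_ker _

lemma isOpen_kerAct (hadm : IsAdmissibleExtensionCts p V C) : IsOpen (kerAct V : Set GQ) := by
  have h := hadm.open_kernel
  convert h using 1
  ext σ
  exact mem_kerAct

variable (V) in
/-- The field cut out by `V`. -/
noncomputable def fixedL : IntermediateField ℚ Qb := IntermediateField.fixedField (kerAct V)

lemma fixingSubgroup_fixedL (hadm : IsAdmissibleExtensionCts p V C) :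
    (fixedL V).fixingSubgroup = kerAct V := by
  have hcl : IsClosed (kerAct V : Set GQ) := Subgroup.isClosed_of_isOpen _ (isOpen_kerAct hadm)
  exact InfiniteGalois.fixingSubgroup_fixedField ⟨kerAct V, hcl⟩

lemma finiteDimensional_fixedL (hadm : IsAdmissibleExtensionCts p V C) :
    FiniteDimensional ℚ (fixedL V) := by
  rw [← InfiniteGalois.isOpen_iff_finite]
  change IsOpen ((fixedL V).fixingSubgroup : Set GQ)
  rw [fixingSubgroup_fixedL hadm]
  exact isOpen_kerAct hadm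

lemma isGalois_fixedL (hadm : IsAdmissibleExtensionCts p V C) :
    IsGalois ℚ (fixedL V) := by
  refine (InfiniteGalois.normal_iff_isGalois (fixedL V)).mp ?_
  rw [fixingSubgroup_fixedL hadm]
  infer_instance

end adm

section field

variable {p : ℕ} [Fact p.Prime] {V : Type} [AddCommGroup V] [Module (ZMod p) V]
  [DistribMulAction GQ V] [SMulCommClass GQ (ZMod p) V] {C : Submodule (ZMod p) V}

variable (L : IntermediateField ℚ Qb) [FiniteDimensional ℚ L] [IsGalois ℚ L]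

/-- A finite extension of `ℚ` inside `ℚ̄` is a number field. -/
instance numberField_of_finite : NumberField L :=
  { to_charZero := inferInstance, to_finiteDimensional := inferInstance }

/-- Restriction `G_ℚ → Gal(L/ℚ)`. -/
noncomputable abbrev res : GQ →* (L ≃ₐ[ℚ] L) := AlgEquiv.restrictNormalHom L

lemma res_apply_coe (σ : GQ) (x : L) : ((res L σ x : L) : Qb) = σ x :=
  AlgEquiv.restrictNormal_commutes σ L x

lemma res_surjective : Function.Surjective (res L) :=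
  AlgEquiv.restrictNormalHom_surjective Qb

variable {L}

lemma res_eq_one_iff (hL : L.fixingSubgroup = kerAct V) (σ : GQ) :
    res L σ = 1 ↔ ∀ v : V, σ • v = v := by
  rw [← mem_kerAct, ← hL, IntermediateField.mem_fixingSubgroup_iff]
  constructor
  · intro h x hx
    have := res_apply_coe L σ ⟨x, hx⟩
    rw [h] at this
    exact this.symm
  · intro h
    ext x
    rw [res_apply_coe]
    exact h x x.2

lemma res_eq_res_iff (hL : L.fixingSubgroup = kerAct V) (σ τ : GQ) :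
    res L σ = res L τ ↔ ∀ v : V, σ • v = τ • v := by
  have h1 : res L σ = res L τ ↔ res L (τ⁻¹ * σ) = 1 := by
    rw [map_mul, map_inv, inv_mul_eq_one, eq_comm]
  rw [h1, res_eq_one_iff hL]
  constructor
  · intro h v
    have := h v
    rw [mul_smul, inv_smul_eq_iff] at this
    exact this
  · intro h v
    rw [mul_smul, inv_smul_eq_iff]
    exact h v

end field

section cyc

variable {p : ℕ} [Fact p.Prime] {V : Type} [AddCommGroup V] [Module (ZMod p) V]
  [DistribMulAction GQ V] [SMulCommClass GQ (ZMod p) V] {C : Submodule (ZMod p) V}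

variable {L : IntermediateField ℚ Qb} [FiniteDimensional ℚ L] [IsGalois ℚ L]

/-- `K = ℚ(ζ)` inside `L`. -/
noncomputable def cycK {ζ : Qb} (hζL : ζ ∈ L) : IntermediateField ℚ L :=
  IntermediateField.adjoin ℚ {(⟨ζ, hζL⟩ : L)}

lemma zeta_mem_cycK {ζ : Qb} (hζL : ζ ∈ L) : (⟨ζ, hζL⟩ : L) ∈ cycK hζL :=
  IntermediateField.mem_adjoin_simple_self ℚ _

lemma isCyclotomicExtension_cycK {ζ : Qb} (hζ : IsPrimitiveRoot ζ p) (hζL : ζ ∈ L) :
    IsCyclotomicExtension {p} ℚ (cycK hζL) := by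
  haveI : NeZero p := ⟨(Fact.out : p.Prime).ne_zero⟩
  have h : IsPrimitiveRoot (⟨ζ, hζL⟩ : L) p := IsPrimitiveRoot.coe_submonoidClass_iff.mp hζ
  exact h.intermediateField_adjoin_isCyclotomicExtension ℚ

/-- An automorphism of `L/ℚ` fixing `ζ` fixes `K = ℚ(ζ)` pointwise. -/
lemma apply_eq_of_mem_cycK {ζ : Qb} (hζL : ζ ∈ L) (g : L ≃ₐ[ℚ] L)
    (hg : g ⟨ζ, hζL⟩ = ⟨ζ, hζL⟩) (x : L) (hx : x ∈ cycK hζL) : g x = x := by
  unfold cycK at hx
  induction hx using IntermediateField.adjoin_induction with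
  | mem y hy =>
    rw [Set.mem_singleton_iff] at hy
    rw [hy, hg]
  | algebraMap y => exact g.commutes y
  | add y z _ _ hy hz => rw [map_add, hy, hz]
  | inv y _ hy => rw [map_inv₀, hy]
  | mul y z _ _ hy hz => rw [map_mul, hy, hz]

/-- Promote an automorphism over `ℚ` fixing `ζ` to an automorphism over `K`. -/
noncomputable def toK {ζ : Qb} (hζL : ζ ∈ L) (g : L ≃ₐ[ℚ] L) (hg : g ⟨ζ, hζL⟩ = ⟨ζ, hζL⟩) :
    L ≃ₐ[cycK hζL] L :=
  { g.toRingEquiv with commutes' := fun x => apply_eq_of_mem_cycK hζL g hg x x.2 }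

lemma toK_restrictScalars {ζ : Qb} (hζL : ζ ∈ L) (g : L ≃ₐ[ℚ] L)
    (hg : g ⟨ζ, hζL⟩ = ⟨ζ, hζL⟩) : (toK hζL g hg).restrictScalars ℚ = g := by
  ext x
  rfl

/-- A lift to `G_ℚ` of an element of `Gal(L/K)` fixes `ζ`. -/
lemma lift_apply_zeta {ζ : Qb} (hζL : ζ ∈ L) (τ : L ≃ₐ[cycK hζL] L) (σ : GQ)
    (hσ : res L σ = τ.restrictScalars ℚ) : σ ζ = ζ := by
  have h1 := res_apply_coe L σ ⟨ζ, hζL⟩
  rw [hσ] at h1
  have h2 : τ (⟨ζ, hζL⟩ : L) = ⟨ζ, hζL⟩ := τ.commutes ⟨⟨ζ, hζL⟩, zeta_mem_cycK hζL⟩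
  rw [AlgEquiv.restrictScalars_apply, h2] at h1
  exact h1.symm

lemma res_apply_zeta {ζ : Qb} (hζL : ζ ∈ L) (σ : GQ) (hσ : σ ζ = ζ) :
    res L σ ⟨ζ, hζL⟩ = ⟨ζ, hζL⟩ := by
  apply Subtype.ext
  rw [res_apply_coe]
  exact hσ

end cyc

section galois

variable {p : ℕ} [Fact p.Prime] {V : Type} [AddCommGroup V] [Module (ZMod p) V]
  [DistribMulAction GQ V] [SMulCommClass GQ (ZMod p) V] {C : Submodule (ZMod p) V}

variable {L : IntermediateField ℚ Qb} [FiniteDimensional ℚ L] [IsGalois ℚ L]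

/-- A chosen lift to `G_ℚ` of an element of `Gal(L/K)`. -/
noncomputable def liftK {ζ : Qb} (hζL : ζ ∈ L) (τ : L ≃ₐ[cycK hζL] L) : GQ :=
  (res_surjective L (τ.restrictScalars ℚ)).choose

lemma res_liftK {ζ : Qb} (hζL : ζ ∈ L) (τ : L ≃ₐ[cycK hζL] L) :
    res L (liftK hζL τ) = τ.restrictScalars ℚ :=
  (res_surjective L (τ.restrictScalars ℚ)).choose_spec

lemma chi_liftK {ζ : Qb} (hζ : IsPrimitiveRoot ζ p) (hζL : ζ ∈ L) (τ : L ≃ₐ[cycK hζL] L) :
    chi p (liftK hζL τ) = 1 :=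
  (chi_eq_one_iff hζ _).mpr (lift_apply_zeta hζL τ _ (res_liftK hζL τ))

/-- The displacement homomorphism `Gal(L/K) → C`. -/
noncomputable def dispHom (hS : Setup C (chi p)) (hL : L.fixingSubgroup = kerAct V) {ζ : Qb}
    (hζ : IsPrimitiveRoot ζ p) (hζL : ζ ∈ L) (v₀ : V) :
    (L ≃ₐ[cycK hζL] L) →* Multiplicative C where
  toFun τ := Multiplicative.ofAdd
    ⟨liftK hζL τ • v₀ - v₀, hS.smul_sub_mem (chi_liftK hζ hζL τ) v₀⟩
  map_one' := by
    have h1 : res L (liftK hζL (1 : L ≃ₐ[cycK hζL] L)) = 1 := by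
      rw [res_liftK]; rfl
    have h2 := (res_eq_one_iff hL _).mp h1 v₀
    rw [← ofAdd_zero]
    congr 1
    apply Subtype.ext
    simp only [h2, sub_self, ZeroMemClass.coe_zero]
  map_mul' τ τ' := by
    have h1 : res L (liftK hζL (τ * τ')) = res L (liftK hζL τ * liftK hζL τ') := by
      rw [map_mul, res_liftK, res_liftK, res_liftK]; rfl
    have h2 := (res_eq_res_iff hL _ _).mp h1 v₀
    rw [← ofAdd_add]
    congr 1
    apply Subtype.ext
    simp only [h2, Submodule.coe_add]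
    exact hS.mul_smul_sub (chi_liftK hζ hζL τ') v₀

lemma dispHom_injective (hS : Setup C (chi p)) (hL : L.fixingSubgroup = kerAct V) {ζ : Qb}
    (hζ : IsPrimitiveRoot ζ p) (hζL : ζ ∈ L) {v₀ : V} (hv₀ : v₀ ∉ C) :
    Function.Injective (dispHom hS hL hζ hζL v₀) := by
  rw [injective_iff_map_eq_one]
  intro τ hτ
  have h1 : liftK hζL τ • v₀ - v₀ = 0 := by
    have := congrArg (fun x => ((Multiplicative.toAdd x : C) : V)) hτ
    simpa [dispHom] using this
  have h2 : ∀ v : V, liftK hζL τ • v = v :=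
    hS.smul_eq_self_of_smul_eq hv₀ (sub_eq_zero.mp h1)
  have h3 := (res_eq_one_iff hL _).mpr h2
  rw [res_liftK] at h3
  apply AlgEquiv.restrictScalars_injective ℚ
  rw [h3]; rfl

/-- In Case B, `[L : K] = p`. -/
lemma finrank_cycK (hS : Setup C (chi p)) (hL : L.fixingSubgroup = kerAct V) {ζ : Qb}
    (hζ : IsPrimitiveRoot ζ p) (hζL : ζ ∈ L) (σ₀ : GQ) (hσ₀ : chi p σ₀ = 1) (v₁ : V)
    (hv₁ : σ₀ • v₁ ≠ v₁) : Module.finrank (cycK hζL) L = p := by
  obtain ⟨v₀, hv₀⟩ := hS.exists_notMem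
  rw [← IsGalois.card_aut_eq_finrank]
  have hdvd : Nat.card (L ≃ₐ[cycK hζL] L) ∣ Nat.card (Multiplicative C) :=
    Subgroup.card_dvd_of_injective _ (dispHom_injective hS hL hζ hζL hv₀)
  rw [Nat.card_congr Multiplicative.toAdd, hS.card_sub] at hdvd
  rcases (Nat.dvd_prime (Fact.out : p.Prime)).mp hdvd with h1 | h1
  · exfalso
    -- the group is trivial, but `σ₀` gives a nontrivial element
    have hsub : Subsingleton (L ≃ₐ[cycK hζL] L) := by
      haveI : Finite (L ≃ₐ[cycK hζL] L) := Nat.finite_of_card_ne_zero (by rw [h1]; exact one_ne_zero)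
      exact (Nat.card_eq_one_iff_unique.mp h1).1
    have hg := res_apply_zeta hζL σ₀ ((chi_eq_one_iff hζ σ₀).mp hσ₀)
    have h2 : toK hζL (res L σ₀) hg = 1 := Subsingleton.elim _ _
    have h3 : res L σ₀ = 1 := by
      rw [← toK_restrictScalars hζL (res L σ₀) hg, h2]; rfl
    exact hv₁ ((res_eq_one_iff hL σ₀).mp h3 v₁)
  · exact h1

/-- The conjugation action. -/
lemma act_cycK (hS : Setup C (chi p)) (hL : L.fixingSubgroup = kerAct V) {ζ : Qb}
    (hζ : IsPrimitiveRoot ζ p) (hζL : ζ ∈ L) (σ : L ≃ₐ[ℚ] L) (τ : L ≃ₐ[cycK hζL] L) (z : L)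
    (n : ℕ) (hz : IsPrimitiveRoot z p) (hσz : σ z = z ^ n) :
    σ⁻¹ * τ.restrictScalars ℚ * σ = (τ.restrictScalars ℚ) ^ n := by
  obtain ⟨g, hg⟩ := res_surjective L σ
  have hz' : IsPrimitiveRoot (z : Qb) p := IsPrimitiveRoot.coe_submonoidClass_iff.mpr hz
  have hgz : g (z : Qb) = (z : Qb) ^ n := by
    rw [← res_apply_coe L g z, hg, hσz]; rfl
  have hχg : chi p g = n := (chi_eq_natCast_iff hz' g n).mpr hgz
  have hχt := chi_liftK hζ hζL τ
  have key : res L (g⁻¹ * liftK hζL τ * g) = res L (liftK hζL τ ^ n) :=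
    (res_eq_res_iff hL _ _).mpr (hS.conj_smul_eq_pow_smul hχt g n hχg)
  rw [map_mul, map_mul, map_inv, map_pow, res_liftK, hg] at key
  exact key

end galois

section localInput

/-- The local input (package RED-c) for a finite Galois `L ⊆ ℚ̄`: valuation subrings above
primes of `𝓞 L`, and surjectivity of decomposition / inertia groups. -/
structure LocalInput (L : IntermediateField ℚ Qb) : Prop where
  exists_val : ∀ P : Ideal (𝓞 L), P.IsPrime → P ≠ ⊥ →
    ∃ A : ValuationSubring Qb, ∀ x : 𝓞 L, x ∈ P ↔ ((x : L) : Qb) ∈ A.nonunits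
  lift_dec : ∀ (A : ValuationSubring Qb) (P : Ideal (𝓞 L)), P.IsPrime → P ≠ ⊥ →
    (∀ x : 𝓞 L, x ∈ P ↔ ((x : L) : Qb) ∈ A.nonunits) → ∀ τ : L ≃ₐ[ℚ] L,
    (∀ x : 𝓞 L, x ∈ P → τ • x ∈ P) →
    ∃ σ ∈ A.decompositionSubgroup ℚ, ∀ x : L, σ (x : Qb) = ((τ x : L) : Qb)
  lift_inertia : ∀ (A : ValuationSubring Qb) (P : Ideal (𝓞 L)), P.IsPrime → P ≠ ⊥ →
    (∀ x : 𝓞 L, x ∈ P ↔ ((x : L) : Qb) ∈ A.nonunits) → ∀ τ : L ≃ₐ[ℚ] L,
    (∀ x : 𝓞 L, τ • x - x ∈ P) →
    ∃ σ ∈ A.inertiaSubgroupIn ℚ, ∀ x : L, σ (x : Qb) = ((τ x : L) : Qb)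

variable {p : ℕ} [Fact p.Prime] {V : Type} [AddCommGroup V] [Module (ZMod p) V]
  [DistribMulAction GQ V] [SMulCommClass GQ (ZMod p) V] {C : Submodule (ZMod p) V}

variable {L : IntermediateField ℚ Qb} [FiniteDimensional ℚ L] [IsGalois ℚ L]

lemma res_eq_of_forall (σ : GQ) (τ : L ≃ₐ[ℚ] L)
    (h : ∀ x : L, σ (x : Qb) = ((τ x : L) : Qb)) : res L σ = τ := by
  ext x
  rw [res_apply_coe]
  exact h x

/-- Every nonzero prime of `𝓞 L` contains a rational prime. -/
lemma exists_prime_mem (P : Ideal (𝓞 L)) [P.IsPrime] (hP : P ≠ ⊥) :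
    ∃ ℓ : ℕ, ℓ.Prime ∧ (ℓ : 𝓞 L) ∈ P := by
  haveI : Finite (𝓞 L ⧸ P) := Ideal.finiteQuotientOfFreeOfNeBot P hP
  haveI : IsDomain (𝓞 L ⧸ P) := Ideal.Quotient.isDomain P
  obtain ⟨ℓ, hℓ⟩ := CharP.exists (𝓞 L ⧸ P)
  refine ⟨ℓ, ?_, ?_⟩
  · exact (CharP.char_is_prime_or_zero (𝓞 L ⧸ P) ℓ).resolve_right
      (CharP.char_ne_zero_of_finite (𝓞 L ⧸ P) ℓ)
  · rw [← Ideal.Quotient.eq_zero_iff_mem, map_natCast]
    exact CharP.cast_eq_zero _ ℓ

lemma liesOverPrime_of_mem {A : ValuationSubring Qb} {P : Ideal (𝓞 L)}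
    (hAP : ∀ x : 𝓞 L, x ∈ P ↔ ((x : L) : Qb) ∈ A.nonunits) {ℓ : ℕ} (hℓ : (ℓ : 𝓞 L) ∈ P) :
    A.LiesOverPrime ℓ := by
  have := (hAP _).mp hℓ
  simpa [ValuationSubring.LiesOverPrime] using this

/-- Trivial decomposition groups above `p` in `L/K`. -/
lemma split_cycK (hadm : IsAdmissibleExtensionCts p V C) (hL : L.fixingSubgroup = kerAct V)
    (hloc : LocalInput L) {ζ : Qb} (hζ : IsPrimitiveRoot ζ p) (hζL : ζ ∈ L)
    (P : Ideal (𝓞 L)) (hP : P.IsPrime) (hpP : (p : 𝓞 L) ∈ P) (τ : L ≃ₐ[cycK hζL] L)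
    (hτ : ∀ x : 𝓞 L, x ∈ P → τ • x ∈ P) : τ = 1 := by
  have hS := setup_of_adm hadm
  have hP0 : P ≠ ⊥ := by
    rintro rfl
    have h0 : (p : 𝓞 L) = 0 := hpP
    exact (Fact.out : p.Prime).ne_zero (by exact_mod_cast h0)
  obtain ⟨A, hAP⟩ := hloc.exists_val P hP hP0
  have hAp : A.LiesOverPrime p := liesOverPrime_of_mem hAP hpP
  obtain ⟨σ, hσD, hσ⟩ := hloc.lift_dec A P hP hP0 hAP (τ.restrictScalars ℚ) hτ
  have hres : res L σ = τ.restrictScalars ℚ := res_eq_of_forall σ _ hσ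
  have hχ : chi p σ = 1 := (chi_eq_one_iff hζ _).mpr (lift_apply_zeta hζL τ σ hres)
  obtain ⟨C', hC', hcompl⟩ := hadm.locally_split A hAp
  have htriv : ∀ v : V, σ • v = v := by
    intro v
    have htop : v ∈ C ⊔ C' := by rw [hcompl.sup_eq_top]; trivial
    obtain ⟨c, hc, c', hc', rfl⟩ := Submodule.mem_sup.mp htop
    have h1 : σ • c' - c' ∈ C ⊓ C' :=
      ⟨hS.smul_sub_mem hχ c', C'.sub_mem (hC' σ hσD c' hc') hc'⟩
    rw [hcompl.inf_eq_bot, Submodule.mem_bot, sub_eq_zero] at h1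
    rw [smul_add, hS.fixed σ c hc, h1]
  have h3 := (res_eq_one_iff hL σ).mpr htriv
  rw [hres] at h3
  apply AlgEquiv.restrictScalars_injective ℚ
  rw [h3]; rfl

/-- Trivial inertia groups in `L/K`. -/
lemma unram_cycK (hadm : IsAdmissibleExtensionCts p V C) (hL : L.fixingSubgroup = kerAct V)
    (hloc : LocalInput L) {ζ : Qb} (hζ : IsPrimitiveRoot ζ p) (hζL : ζ ∈ L)
    (P : Ideal (𝓞 L)) (hP : P.IsPrime) (hP0 : P ≠ ⊥) (τ : L ≃ₐ[cycK hζL] L)
    (hτ : ∀ x : 𝓞 L, τ • x - x ∈ P) : τ = 1 := by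
  obtain ⟨ℓ, hℓ, hℓP⟩ := exists_prime_mem P hP0
  by_cases hℓp : ℓ = p
  · subst hℓp
    refine split_cycK hadm hL hloc hζ hζL P hP hℓP τ fun x hx => ?_
    have := P.add_mem (hτ x) hx
    rwa [sub_add_cancel] at this
  · obtain ⟨A, hAP⟩ := hloc.exists_val P hP hP0
    have hAℓ : A.LiesOverPrime ℓ := liesOverPrime_of_mem hAP hℓP
    obtain ⟨σ, hσI, hσ⟩ := hloc.lift_inertia A P hP hP0 hAP (τ.restrictScalars ℚ) hτ
    have hres : res L σ = τ.restrictScalars ℚ := res_eq_of_forall σ _ hσ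
    have htriv : ∀ v : V, σ • v = v := hadm.unramified_outside ℓ hℓ hℓp A hAℓ σ hσI
    have h3 := (res_eq_one_iff hL σ).mpr htriv
    rw [hres] at h3
    apply AlgEquiv.restrictScalars_injective ℚ
    rw [h3]; rfl

end localInput

section final

variable {p : ℕ} [Fact p.Prime] {V : Type} [AddCommGroup V] [Module (ZMod p) V]
  [DistribMulAction GQ V] [SMulCommClass GQ (ZMod p) V] {C : Submodule (ZMod p) V}

lemma exists_chi_ne_one (h3 : 3 ≤ p) : ∃ τ₀ : GQ, chi p τ₀ ≠ 1 := by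
  by_contra hcon
  replace hcon : ∀ f : GQ, chi p f = 1 := fun f => by
    by_contra hf
    exact hcon ⟨f, hf⟩
  obtain ⟨ζ, hζ⟩ := exists_primitiveRoot p
  have hfix : ∀ f : GQ, f ζ = ζ := fun f => (chi_eq_one_iff hζ f).mp (hcon f)
  obtain ⟨q, hq⟩ := (InfiniteGalois.mem_range_algebraMap_iff_fixed ζ).mpr hfix
  have hq' : IsPrimitiveRoot q p := by
    rw [← hq] at hζ
    exact hζ.of_map_of_injective (algebraMap ℚ Qb).injective
  have hodd : Odd p := (Fact.out : p.Prime).odd_of_ne_two (by omega)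
  have h1 : q ^ p = 1 := hq'.pow_eq_one
  have hq1 : q = 1 := by
    have := hodd.strictMono_pow (R := ℚ)
    exact this.injective (by simpa using h1)
  rw [hq1] at hq'
  have := hq'.eq_orderOf
  rw [orderOf_one] at this
  omega

/-- Case B leads to a `CATSetting`, hence to a contradiction. -/
theorem false_of_nontrivial (h3 : 3 ≤ p)
    (hcat : ∀ (L : Type) [Field L] [NumberField L] (K : IntermediateField ℚ L),
      CATSetting p L K → False)
    (hadm : IsAdmissibleExtensionCts p V C) (L : IntermediateField ℚ Qb)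
    [FiniteDimensional ℚ L] [IsGalois ℚ L] (hL : L.fixingSubgroup = kerAct V)
    (hloc : LocalInput L) (σ₀ : GQ) (hσ₀ : chi p σ₀ = 1) (v₁ : V) (hv₁ : σ₀ • v₁ ≠ v₁) :
    False := by
  have hS := setup_of_adm hadm
  obtain ⟨ζ, hζ⟩ := exists_primitiveRoot p
  obtain ⟨v₀, hv₀⟩ := hS.exists_notMem
  have hζL : ζ ∈ L := by
    rw [← InfiniteGalois.fixedField_fixingSubgroup L, hL, IntermediateField.mem_fixedField_iff]
    intro f hf
    rw [← chi_eq_one_iff hζ]
    have h1 := hS.quot f v₀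
    rw [mem_kerAct.mp hf v₀] at h1
    nth_rewrite 1 [← one_smul (ZMod p) v₀] at h1
    exact (Setup.eq_of_smul_sub_mem hv₀ h1).symm
  refine hcat L (cycK hζL) ?_
  exact
    { prime := Fact.out
      three_le := h3
      galois := inferInstance
      cyclo := isCyclotomicExtension_cycK hζ hζL
      deg := finrank_cycK hS hL hζ hζL σ₀ hσ₀ v₁ hv₁
      unram := fun P hP hP0 τ hτ => unram_cycK hadm hL hloc hζ hζL P hP hP0 τ hτ
      split_p := fun P hP hpP τ hτ => split_cycK hadm hL hloc hζ hζL P hP hpP τ hτ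
      act := fun σ τ z n hz hσz => act_cycK hS hL hζ hζL σ τ z n hz hσz }

/-- The reduction, given the local input for the field cut out by `V`. -/
theorem splitsGlobally_of_localInput (h3 : 3 ≤ p)
    (hcat : ∀ (L : Type) [Field L] [NumberField L] (K : IntermediateField ℚ L),
      CATSetting p L K → False)
    (hadm : IsAdmissibleExtensionCts p V C) (hloc : LocalInput (fixedL V)) :
    SplitsGlobally C := by
  have hS := setup_of_adm hadm
  by_cases hB : ∃ σ₀ : GQ, chi p σ₀ = 1 ∧ ∃ v₁ : V, σ₀ • v₁ ≠ v₁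
  · obtain ⟨σ₀, hσ₀, v₁, hv₁⟩ := hB
    haveI := finiteDimensional_fixedL hadm
    haveI := isGalois_fixedL hadm
    exact (false_of_nontrivial h3 hcat hadm (fixedL V) (fixingSubgroup_fixedL hadm) hloc
      σ₀ hσ₀ v₁ hv₁).elim
  · have htriv : ∀ σ : GQ, chi p σ = 1 → ∀ v : V, σ • v = v := by
      intro σ hσ v
      by_contra hv
      exact hB ⟨σ, hσ, v, hv⟩
    obtain ⟨τ₀, hτ₀⟩ := exists_chi_ne_one (p := p) h3
    exact hS.exists_stable_compl_of_trivial htriv hτ₀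

end final

end Fermat.Agent.S14.Reduction
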